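import Mathlib

/-!
# Factoriality descends along flat local homomorphisms

For an irreducible `f` of a Noetherian local domain and an element `a`, the ideal of the `c` with
`f ∣ c a` becomes principal after a flat local extension to a factorial ring, hence is principal.
-/

set_option autoImplicit false

noncomputable section

namespace FermatAgent.AV

variable {R S : Type*} [CommRing R] [CommRing S] [Algebra R S] [IsLocalRing R] [IsLocalRing S]
  [IsLocalHom (algebraMap R S)] [Module.Flat R S] [IsDomain S]

include S in
/-- A local ring with a flat local homomorphism to a domain is a domain, since such a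
homomorphism is injective. -/
theorem isDomain_of_flat_local : IsDomain R := by
  have : Module.FaithfullyFlat R S := Module.FaithfullyFlat.of_flat_of_isLocalHom
  exact (FaithfulSMul.algebraMap_injective R S).isDomain _

variable [IsNoetherianRing R] [UniqueFactorizationMonoid S]

include S in
/-- **Factoriality descends**: a Noetherian local domain with a flat local homomorphism to a
factorial ring is factorial. -/
theorem ufd_of_flat_local [IsDomain R] : UniqueFactorizationMonoid R := by
  classical
  have : Module.FaithfullyFlat R S := Module.FaithfullyFlat.of_flat_of_isLocalHom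
  set φ := algebraMap R S
  have hφ : Function.Injective φ := FaithfulSMul.algebraMap_injective R S
  refine { irreducible_iff_prime := fun {f} => ⟨fun hf => ?_, fun hf => hf.irreducible⟩ }
  refine ⟨hf.ne_zero, hf.not_isUnit, fun a b hab => ?_⟩
  let C : Ideal R :=
    { carrier := {c | f ∣ c * a}
      add_mem' := fun {x y} hx hy => by
        show f ∣ (x + y) * a
        rw [add_mul]; exact dvd_add hx hy
      zero_mem' := by show f ∣ 0 * a; simp
      smul_mem' := fun r x hx => by
        show f ∣ r * x * a
        rw [mul_assoc]; exact hx.mul_left r }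
  have hbC : b ∈ C := by show f ∣ b * a; rwa [mul_comm]
  rcases eq_or_ne a 0 with rfl | ha
  · exact Or.inl (dvd_zero f)
  have hfS : φ f ≠ 0 := (map_ne_zero_iff _ hφ).2 hf.ne_zero
  have haS : φ a ≠ 0 := (map_ne_zero_iff _ hφ).2 ha
  obtain ⟨f', a', d, hco, hf', ha'⟩ :=
    UniqueFactorizationMonoid.exists_reduced_factors' (φ f) (φ a) haS
  have hd : d ≠ 0 := left_ne_zero_of_mul (a := d) (b := a') (by rwa [ha'])
  have hf'0 : f' ≠ 0 := right_ne_zero_of_mul (a := d) (b := f') (by rwa [hf'])
  have hmap : C.map φ = Ideal.span {f'} := by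
    refine le_antisymm (Ideal.map_le_iff_le_comap.2 fun c hc => ?_)
      ((Ideal.span_singleton_le_iff_mem _).2 ?_)
    · rw [Ideal.mem_comap, Ideal.mem_span_singleton]
      obtain ⟨z, hz⟩ := hc
      refine hco.dvd_of_dvd_mul_right ⟨φ z, mul_left_cancel₀ hd ?_⟩
      rw [← mul_assoc, ← mul_assoc, hf', mul_comm d, mul_assoc, ha', ← map_mul, ← map_mul, hz]
    · -- the relation `f' * a - a' * f = 0` comes from relations in `R`
      have hrel : ∑ i, (![a, -f] : Fin 2 → R) i • (![f', a'] : Fin 2 → S) i = 0 := by
        simp only [Fin.sum_univ_two, Matrix.cons_val_zero, Matrix.cons_val_one, Algebra.smul_def,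
          map_neg]
        change φ a * f' + -φ f * a' = 0
        rw [← ha', ← hf']; ring
      obtain ⟨k, u, y, hy, hu⟩ := Module.Flat.isTrivialRelation_of_sum_smul_eq_zero
        (R := R) (M := S) (f := (![a, -f] : Fin 2 → R)) (x := (![f', a'] : Fin 2 → S)) hrel
      have h0 := hy 0
      simp only [Matrix.cons_val_zero] at h0
      rw [h0]
      refine Ideal.sum_mem _ fun j _ => ?_
      rw [Algebra.smul_def]
      refine Ideal.mul_mem_right _ _ (Ideal.mem_map_of_mem φ ?_)
      have h1 := hu j
      simp only [Fin.sum_univ_two, Matrix.cons_val_zero, Matrix.cons_val_one, neg_mul,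
        ← sub_eq_add_neg, sub_eq_zero] at h1
      exact ⟨u 1 j, by rw [mul_comm, h1]⟩
  obtain ⟨G, hG⟩ := IsNoetherian.noetherian C
  have hgen : Ideal.span (φ '' (G : Set R)) = Ideal.span {f'} := by
    rw [← Ideal.map_span, ← hmap, ← hG]
  obtain ⟨g, hg, hgf⟩ : ∃ g ∈ G, Associated (φ g) f' := by
    by_contra! h
    have hle : Ideal.span (φ '' (G : Set R)) ≤
        Ideal.span {f'} * IsLocalRing.maximalIdeal S := by
      rw [Ideal.span_le]
      rintro _ ⟨g, hg, rfl⟩
      obtain ⟨s, hs⟩ : f' ∣ φ g := Ideal.mem_span_singleton.1 (by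
        rw [← hgen]; exact Ideal.subset_span ⟨g, hg, rfl⟩)
      refine Ideal.mem_span_singleton_mul.2 ⟨s, (IsLocalRing.mem_maximalIdeal s).2 fun hu => ?_,
        hs.symm⟩
      exact h g hg (Associated.symm ⟨hu.unit, by rw [hu.unit_spec, ← hs]⟩)
    obtain ⟨s, hs, hs'⟩ := Ideal.mem_span_singleton_mul.1
      (hle (by rw [hgen]; exact Ideal.mem_span_singleton_self _))
    have : s = 1 := mul_left_cancel₀ hf'0 (by rw [hs', mul_one])
    exact (IsLocalRing.mem_maximalIdeal s).1 hs (by rw [this]; exact isUnit_one)
  have hC : C = Ideal.span {g} := by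
    rw [← Ideal.comap_map_eq_self_of_faithfullyFlat (A := R) (B := S) C,
      ← Ideal.comap_map_eq_self_of_faithfullyFlat (A := R) (B := S) (Ideal.span {g}),
      Ideal.map_span, Set.image_singleton]
    exact congrArg (Ideal.comap φ)
      (hmap.trans (Ideal.span_singleton_eq_span_singleton.2 hgf.symm))
  obtain ⟨u, hu⟩ : g ∣ f :=
    Ideal.mem_span_singleton.1 (hC ▸ (show f ∈ C from dvd_mul_right f a))
  rcases hf.isUnit_or_isUnit hu with h | h
  · have h1 : (1 : R) ∈ C := by rw [hC, Ideal.span_singleton_eq_top.2 h]; trivial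
    exact Or.inl (by simpa using (show f ∣ 1 * a from h1))
  · refine Or.inr ?_
    obtain ⟨w, hw⟩ : g ∣ b := Ideal.mem_span_singleton.1 (hC ▸ hbC)
    rw [hu, hw]
    exact mul_dvd_mul_left g h.dvd

end FermatAgent.AV

end
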