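import Fermat.Agent.AV.Basic.PowerSeries
import Fermat.Agent.AV.Basic.FlatUFD

/-!
# Noetherian formally smooth local rings with infinite residue field `K` are factorial

Their completion is a power series ring over `K`.
-/

set_option autoImplicit false

noncomputable section

open IsLocalRing

namespace FermatAgent.AV

/-- A surjective endomorphism of a Noetherian ring is injective. -/
theorem injective_of_surjective_endo {R : Type*} [CommRing R] [IsNoetherianRing R] {f : R →+* R}
    (hf : Function.Surjective f) : Function.Injective f := by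
  let F : ℕ →o Ideal R :=
    ⟨fun k => RingHom.ker (f ^ k), monotone_nat_of_le_succ fun k x hx => by
      have h : (f ^ k) x = 0 := hx
      show (f ^ (k + 1)) x = 0
      rw [pow_succ', RingHom.mul_def, RingHom.comp_apply, h, map_zero]⟩
  obtain ⟨k, hk⟩ := monotone_stabilizes_iff_noetherian.mpr inferInstance F
  rw [injective_iff_map_eq_zero]
  intro x hx
  obtain ⟨y, rfl⟩ : ∃ y, (f ^ k) y = x := by
    rw [RingHom.coe_pow]; exact hf.iterate k x
  have h1 : y ∈ F (k + 1) := by
    show (f ^ (k + 1)) y = 0
    rw [pow_succ', RingHom.mul_def, RingHom.comp_apply]; exact hx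
  rw [← hk (k + 1) (Nat.le_succ k)] at h1
  exact h1

theorem isAdicComplete_sq {R : Type*} [CommRing R] (I : Ideal R) [h : IsAdicComplete I R] :
    IsAdicComplete (I ^ 2) R where
  haus' x hx := by
    refine IsHausdorff.haus' (I := I) x fun n => ?_
    have := hx n
    rw [SModEq.zero, smul_eq_mul, Ideal.mul_top, ← pow_mul] at this
    rw [SModEq.zero, smul_eq_mul, Ideal.mul_top]
    exact Ideal.pow_le_pow_right (by omega) this
  prec' f hf := by
    simp only [SModEq.sub_mem, smul_eq_mul, Ideal.mul_top, ← pow_mul] at hf ⊢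
    obtain ⟨L, hL⟩ := IsPrecomplete.prec' (I := I) f fun {m n} hmn => by
      rw [SModEq.sub_mem, smul_eq_mul, Ideal.mul_top]
      exact Ideal.pow_le_pow_right (by omega) (hf hmn)
    simp only [SModEq.sub_mem, smul_eq_mul, Ideal.mul_top] at hL
    refine ⟨L, fun n => ?_⟩
    have := Ideal.add_mem _ (hf (show n ≤ 2 * n by omega)) (hL (2 * n))
    rwa [sub_add_sub_cancel] at this

theorem factor_quotientMap {A B : Type*} [CommRing A] [CommRing B] (φ : A →+* B) (I : Ideal A)
    (J : Ideal B) (h : ∀ k, I ^ k ≤ (J ^ k).comap φ) {a b : ℕ} (hab : a ≤ b) {u v : A}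
    (huv : u - v ∈ I ^ a) :
    Ideal.Quotient.factor (Ideal.pow_le_pow_right hab)
        (Ideal.quotientMap (J ^ b) φ (h b) (Ideal.Quotient.mk _ u)) =
      Ideal.quotientMap (J ^ a) φ (h a) (Ideal.Quotient.mk _ v) := by
  rw [Ideal.quotientMap_mk, Ideal.quotientMap_mk, Ideal.Quotient.factor_mk,
    Ideal.Quotient.mk_eq_mk_iff_sub_mem, ← map_sub]
  exact h a huv

variable {K : Type*} [Field K] {O : Type*} [CommRing O] [IsLocalRing O] [Algebra K O]

theorem exists_residue_section (hres : Function.Bijective (algebraMap K (ResidueField O))) :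
    ∃ c : O →ₐ[K] K, ∀ a, a - algebraMap K O (c a) ∈ maximalIdeal O := by
  let e := AlgEquiv.ofBijective (Algebra.ofId K (ResidueField O)) hres
  refine ⟨e.symm.toAlgHom.comp (IsScalarTower.toAlgHom K O (ResidueField O)), fun a => ?_⟩
  rw [← residue_eq_zero_iff, map_sub, sub_eq_zero]
  have h : e (e.symm (algebraMap O (ResidueField O) a)) = algebraMap O (ResidueField O) a :=
    e.apply_symm_apply _
  exact h.symm

variable {r : ℕ}

/-- Elements whose classes form a basis of the cotangent space generate the maximal ideal. -/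
private lemma span_eq_maximalIdeal [IsNoetherianRing O]
    [IsScalarTower K (ResidueField O) (CotangentSpace O)] {t : Fin r → maximalIdeal O}
    {b : Module.Basis (Fin r) K (CotangentSpace O)}
    (ht : ∀ i, (maximalIdeal O).toCotangent (t i) = b i) :
    Ideal.span (Set.range fun i => (t i : O)) = maximalIdeal O := by
  have h1 : Submodule.span O (Set.range t) = ⊤ := by
    rw [← CotangentSpace.span_image_eq_top_iff, ← Set.range_comp,
      show (maximalIdeal O).toCotangent ∘ t = b from funext ht, eq_top_iff]
    intro v _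
    rw [← b.sum_repr v]
    refine Submodule.sum_mem _ fun i _ => ?_
    rw [← algebraMap_smul (ResidueField O) (b.repr v i) (b i)]
    exact Submodule.smul_mem _ _ (Submodule.subset_span ⟨i, rfl⟩)
  have h2 := congrArg (Submodule.map (maximalIdeal O).subtype) h1
  rw [Submodule.map_span, Submodule.map_subtype_top, ← Set.range_comp] at h2
  exact h2

/-- By formal smoothness, the linear part modulo `n ^ 2` lifts to a map to power series. -/
private lemma exists_lift_powerSeries [Algebra.FormallySmooth K O]
    [IsScalarTower K O (CotangentSpace O)] {c : O →ₐ[K] K}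
    (hc : ∀ a, a - algebraMap K O (c a) ∈ maximalIdeal O) {t : Fin r → maximalIdeal O}
    {b : Module.Basis (Fin r) K (CotangentSpace O)}
    (ht : ∀ i, (maximalIdeal O).toCotangent (t i) = b i) :
    ∃ θ : O →ₐ[K] MvPowerSeries (Fin r) K,
      ∀ i, θ (t i : O) - MvPowerSeries.X i ∈ maximalIdeal (MvPowerSeries (Fin r) K) ^ 2 := by
  set P := MvPowerSeries (Fin r) K
  set n := maximalIdeal P
  have hcm : ∀ {a : O}, a ∈ maximalIdeal O → c a = 0 := by
    intro a ha
    by_contra h
    have h1 := (maximalIdeal O).sub_mem ha (hc a)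
    rw [sub_sub_cancel] at h1
    refine (mem_maximalIdeal _).1 h1 ?_
    exact (isUnit_iff_ne_zero.2 h).map _
  let pr : O → maximalIdeal O := fun a => ⟨a - algebraMap K O (c a), hc a⟩
  let lam : O → Fin r → K := fun a i => b.repr ((maximalIdeal O).toCotangent (pr a)) i
  have hlam_add : ∀ a a', lam (a + a') = lam a + lam a' := fun a a' => by
    funext i
    have : pr (a + a') = pr a + pr a' := Subtype.ext (by simp [pr]; ring)
    simp [lam, this]
  have hlam_K : ∀ k : K, lam (algebraMap K O k) = 0 := fun k => by
    funext i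
    have : pr (algebraMap K O k) = 0 := Subtype.ext (by simp [pr])
    simp [lam, this]
  have hlam_mul : ∀ a a', lam (a * a') = c a • lam a' + c a' • lam a := fun a a' => by
    funext i
    have e : (maximalIdeal O).toCotangent (pr (a * a')) =
        c a • (maximalIdeal O).toCotangent (pr a') +
          c a' • (maximalIdeal O).toCotangent (pr a) := by
      rw [← IsScalarTower.algebraMap_smul O (c a) ((maximalIdeal O).toCotangent (pr a')),
        ← IsScalarTower.algebraMap_smul O (c a') ((maximalIdeal O).toCotangent (pr a)),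
        ← map_smul, ← map_smul, ← map_add, Ideal.toCotangent_eq]
      have h := Ideal.mul_mem_mul (hc a) (hc a')
      rw [← pow_two] at h
      convert h using 1
      simp [pr, Algebra.smul_def]
      ring
    simp [lam, e]
  let L : O → P := fun a =>
    MvPowerSeries.C (c a) + ∑ i, MvPowerSeries.C (lam a i) * MvPowerSeries.X i
  have hX : ∀ i, (MvPowerSeries.X i : P) ∈ n := fun i => by
    rw [show n = Ideal.span (Set.range MvPowerSeries.X) from maximalIdeal_powerSeries K r]
    exact Ideal.subset_span ⟨i, rfl⟩
  have hL1 : L 1 = 1 := by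
    have := hlam_K 1
    rw [map_one] at this
    simp [L, this]
  let f : O →ₐ[K] P ⧸ n ^ 2 :=
    { toFun := fun a => Ideal.Quotient.mk _ (L a)
      map_one' := by rw [hL1, map_one]
      map_zero' := by
        have := hlam_K 0
        rw [map_zero] at this
        simp [L, this]
      map_add' := fun a a' => by
        rw [← map_add]
        congr 1
        simp only [L, map_add, hlam_add, Pi.add_apply, add_mul, Finset.sum_add_distrib]
        abel
      map_mul' := fun a a' => by
        rw [← map_mul, Ideal.Quotient.mk_eq_mk_iff_sub_mem]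
        have hmem : (∑ i, MvPowerSeries.C (lam a i) * MvPowerSeries.X i : P) *
            (∑ i, MvPowerSeries.C (lam a' i) * MvPowerSeries.X i) ∈ n ^ 2 := by
          rw [pow_two]
          exact Ideal.mul_mem_mul (Ideal.sum_mem _ fun i _ => Ideal.mul_mem_left _ _ (hX i))
            (Ideal.sum_mem _ fun i _ => Ideal.mul_mem_left _ _ (hX i))
        convert (n ^ 2).neg_mem hmem using 1
        simp only [L, hlam_mul, Pi.add_apply, Pi.smul_apply, smul_eq_mul, map_mul, map_add,
          add_mul, Finset.sum_add_distrib, mul_assoc, ← Finset.mul_sum]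
        ring
      commutes' := fun k => by
        simp [L, hlam_K]
        rfl }
  have := isAdicComplete_sq n
  obtain ⟨θ, hθ⟩ := Algebra.FormallySmooth.exists_mkₐ_comp_eq_of_isAdicComplete f
  refine ⟨θ, fun i => ?_⟩
  have h1 := DFunLike.congr_fun hθ (t i : O)
  have hp : pr (t i : O) = t i := Subtype.ext (by simp [pr, hcm (t i).2])
  have hl : lam (t i : O) = Pi.single i 1 := by
    funext j
    simp only [lam, hp, ht, Module.Basis.repr_self]
    simp [Finsupp.single_apply, Pi.single_apply, eq_comm]
  change Ideal.Quotient.mk (n ^ 2) (θ (t i : O)) = Ideal.Quotient.mk (n ^ 2) (L (t i : O)) at h1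
  rw [Ideal.Quotient.mk_eq_mk_iff_sub_mem] at h1
  convert h1 using 2
  simp [L, hl, hcm (t i).2, Pi.single_apply, apply_ite MvPowerSeries.C]

variable [IsNoetherianRing O]

omit [IsNoetherianRing O] in
/-- A local map to power series extends to the completion. -/
private lemma exists_extend_completion (θ : O →ₐ[K] MvPowerSeries (Fin r) K)
    (hθm : (maximalIdeal O).map (θ : O →+* MvPowerSeries (Fin r) K) ≤
      maximalIdeal (MvPowerSeries (Fin r) K)) :
    ∃ Θ : AdicCompletion (maximalIdeal O) O →+* MvPowerSeries (Fin r) K,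
      ∀ a : O, Θ (algebraMap O _ a) = θ a := by
  set m := maximalIdeal O
  set M := AdicCompletion m O
  set P := MvPowerSeries (Fin r) K
  set n := maximalIdeal P
  have hk : ∀ k, m ^ k ≤ (n ^ k).comap (θ : O →+* P) := fun k => Ideal.map_le_iff_le_comap.1 (by
    rw [Ideal.map_pow]; exact Ideal.pow_right_mono hθm k)
  let Θ : M →+* P := IsAdicComplete.liftRingHom n
    (fun k => (Ideal.quotientMap (n ^ k) (θ : O →+* P) (hk k)).comp
      (AdicCompletion.evalₐ m k : M →+* O ⧸ m ^ k))
    (fun {a b} hab => RingHom.ext fun x => by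
      obtain ⟨x, rfl⟩ := AdicCompletion.mk_surjective m O x
      simp only [RingHom.comp_apply, RingHom.coe_coe]
      erw [AdicCompletion.evalₐ_mk, AdicCompletion.evalₐ_mk]
      refine factor_quotientMap (θ : O →+* P) m n hk hab ?_
      have := x.2 hab
      rw [SModEq.sub_mem, smul_eq_mul, Ideal.mul_top] at this
      exact (neg_sub (x a) (x b)) ▸ (m ^ a).neg_mem this)
  have hΘ : ∀ (k : ℕ) (a : O), Ideal.Quotient.mk (n ^ k) (Θ (algebraMap O M a)) =
      Ideal.Quotient.mk (n ^ k) (θ a) := fun k a => by
    rw [IsAdicComplete.mk_liftRingHom]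
    simp
  refine ⟨Θ, fun a => ?_⟩
  rw [← sub_eq_zero]
  refine IsHausdorff.haus' (I := n) _ fun k => ?_
  rw [SModEq.zero, smul_eq_mul, Ideal.mul_top, ← Ideal.Quotient.eq_zero_iff_mem, map_sub, hΘ,
    sub_self]

/-- Generators of the maximal ideal define a surjection from power series to the completion. -/
private lemma exists_surjective_powerSeries
    (hres : Function.Bijective (algebraMap K (ResidueField O))) {t : Fin r → O}
    (hspan : Ideal.span (Set.range t) = maximalIdeal O) :
    ∃ Ψ : MvPowerSeries (Fin r) K →+* AdicCompletion (maximalIdeal O) O,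
      (∀ i, Ψ (MvPowerSeries.X i) = algebraMap O _ (t i)) ∧
      (maximalIdeal (MvPowerSeries (Fin r) K)).map Ψ =
        maximalIdeal (AdicCompletion (maximalIdeal O) O) ∧
      Function.Surjective Ψ := by
  set m := maximalIdeal O
  set M := AdicCompletion m O
  set P := MvPowerSeries (Fin r) K
  set n := maximalIdeal P
  set Mx := maximalIdeal M
  have hMx : Mx = m.map (algebraMap O M) := AdicCompletion.maximalIdeal_eq_map
  set J := MvPolynomial.idealOfVars (Fin r) K
  let p : MvPolynomial (Fin r) K →ₐ[K] M := MvPolynomial.aeval fun i => algebraMap O M (t i)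
  have hp : J.map (p : MvPolynomial (Fin r) K →+* M) ≤ Mx := by
    simp only [J, MvPolynomial.idealOfVars]
    rw [Ideal.map_span, Ideal.span_le]
    rintro _ ⟨_, ⟨i, rfl⟩, rfl⟩
    simp only [SetLike.mem_coe, hMx, RingHom.coe_coe, p,
      MvPolynomial.aeval_X]
    exact Ideal.mem_map_of_mem _ (hspan.le (Ideal.subset_span ⟨i, rfl⟩))
  have hpk : ∀ k, J ^ k ≤ (Mx ^ k).comap (p : MvPolynomial (Fin r) K →+* M) := fun k =>
    Ideal.map_le_iff_le_comap.1 (by rw [Ideal.map_pow]; exact Ideal.pow_right_mono hp k)
  let Ψ : P →+* M := IsAdicComplete.liftRingHom Mx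
    (fun k => (Ideal.quotientMap (Mx ^ k) (p : MvPolynomial (Fin r) K →+* M) (hpk k)).comp
      (MvPowerSeries.truncTotalAlgHom (Fin r) K k :
        P →+* MvPolynomial (Fin r) K ⧸ J ^ k))
    (fun {a b} hab => RingHom.ext fun x => by
      simp only [RingHom.comp_apply, RingHom.coe_coe]
      exact factor_quotientMap (p : MvPolynomial (Fin r) K →+* M) J Mx hpk hab
        (MvPowerSeries.truncTotal_sub_truncTotal_mem_pow_idealOfVars hab le_rfl x))
  have hΨX : ∀ i, Ψ (MvPowerSeries.X i) = algebraMap O M (t i) := fun i => by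
    rw [← sub_eq_zero]
    refine IsHausdorff.haus' (I := Mx) _ fun k => ?_
    rw [SModEq.zero, smul_eq_mul, Ideal.mul_top, ← Ideal.Quotient.eq_zero_iff_mem, map_sub,
      IsAdicComplete.mk_liftRingHom, sub_eq_zero]
    have hx := (MvPowerSeries.truncTotalAlgHom (Fin r) K k).commutes (MvPolynomial.X i)
    rw [show (algebraMap (MvPolynomial (Fin r) K) P) (MvPolynomial.X i) = MvPowerSeries.X i from
      MvPolynomial.coe_X i] at hx
    simp only [RingHom.comp_apply, RingHom.coe_coe, hx, Ideal.Quotient.algebraMap_eq]
    erw [Ideal.quotientMap_mk]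
    simp [p]
  have hΨn : n.map Ψ = Mx := by
    rw [show n = Ideal.span (Set.range MvPowerSeries.X) from maximalIdeal_powerSeries K r,
      Ideal.map_span, ← Set.range_comp, hMx]
    refine Eq.trans ?_ (congrArg (Ideal.map (algebraMap O M)) hspan)
    rw [Ideal.map_span, ← Set.range_comp]
    exact congrArg Ideal.span (congrArg Set.range (funext hΨX))
  refine ⟨Ψ, hΨX, hΨn, ?_⟩
  have : IsHausdorff (n.map Ψ) M := by rw [hΨn]; infer_instance
  refine surjective_of_mk_map_comp_surjective Ψ (I := n) fun y => ?_
  obtain ⟨y, rfl⟩ := Ideal.Quotient.mk_surjective y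
  obtain ⟨z, hz⟩ := (AdicCompletion.residueField_map_bijective O).2 (residue M y)
  obtain ⟨k, rfl⟩ := hres.2 z
  refine ⟨algebraMap K P k, ?_⟩
  have hk' : Ψ (algebraMap K P k) - algebraMap O M (algebraMap K O k) ∈ Mx := by
    refine Ideal.pow_le_self one_ne_zero ?_
    rw [← Ideal.Quotient.mk_eq_mk_iff_sub_mem, IsAdicComplete.mk_liftRingHom]
    have hx := (MvPowerSeries.truncTotalAlgHom (Fin r) K 1).commutes (MvPolynomial.C k)
    rw [show (algebraMap (MvPolynomial (Fin r) K) P) (MvPolynomial.C k) = algebraMap K P k from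
      MvPolynomial.coe_C k] at hx
    simp only [RingHom.comp_apply, RingHom.coe_coe, hx, Ideal.Quotient.algebraMap_eq]
    erw [Ideal.quotientMap_mk]
    simp only [p, RingHom.coe_coe, MvPolynomial.aeval_C]
    rw [IsScalarTower.algebraMap_apply K O M k]
  rw [RingHom.comp_apply, Ideal.Quotient.mk_eq_mk_iff_sub_mem, hΨn,
    ← sub_add_sub_cancel (Ψ (algebraMap K P k)) (algebraMap O M (algebraMap K O k)) y]
  refine Ideal.add_mem _ hk' ?_
  rw [← residue_eq_zero_iff, map_sub, sub_eq_zero, ← ResidueField.map_residue]
  exact hz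

variable [Algebra.FormallySmooth K O]

theorem exists_completion_equiv (hres : Function.Bijective (algebraMap K (ResidueField O))) :
    ∃ r, Nonempty
      (AdicCompletion (maximalIdeal O) O ≃+* MvPowerSeries (Fin r) K) := by
  classical
  set m := maximalIdeal O
  set M := AdicCompletion m O
  obtain ⟨c, hc⟩ := exists_residue_section hres
  have : Module.Finite K (ResidueField O) :=
    Module.Finite.of_surjective (Algebra.linearMap K (ResidueField O)) hres.2
  have : IsScalarTower K O (CotangentSpace O) :=
    inferInstanceAs (IsScalarTower K O (maximalIdeal O).Cotangent)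
  have : IsScalarTower K (ResidueField O) (CotangentSpace O) :=
    IsScalarTower.of_algebraMap_smul fun k v => by
      rw [IsScalarTower.algebraMap_apply K O (ResidueField O), algebraMap_smul, algebraMap_smul]
  have : Module.Finite K (CotangentSpace O) := Module.Finite.trans (ResidueField O) _
  set r := Module.finrank K (CotangentSpace O)
  set b := Module.finBasis K (CotangentSpace O)
  choose t ht using fun i => Ideal.toCotangent_surjective m (b i)
  set P := MvPowerSeries (Fin r) K
  set n := maximalIdeal P
  have hn : n = Ideal.span (Set.range MvPowerSeries.X) := maximalIdeal_powerSeries K r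
  have hX : ∀ i, (MvPowerSeries.X i : P) ∈ n := fun i => by
    rw [hn]; exact Ideal.subset_span ⟨i, rfl⟩
  have hspan : Ideal.span (Set.range fun i => (t i : O)) = m := span_eq_maximalIdeal ht
  obtain ⟨θ, hθt⟩ := exists_lift_powerSeries hc ht
  have hθm : m.map (θ : O →+* P) ≤ n := by
    rw [← hspan, Ideal.map_span, Ideal.span_le]
    rintro _ ⟨_, ⟨i, rfl⟩, rfl⟩
    have := Ideal.add_mem _ (Ideal.pow_le_self two_ne_zero (hθt i)) (hX i)
    rwa [sub_add_cancel] at this
  obtain ⟨Θ, hΘθ⟩ := exists_extend_completion θ hθm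
  obtain ⟨Ψ, hΨX, hΨn, hΨsurj⟩ := exists_surjective_powerSeries hres hspan
  -- the composite is surjective, hence injective
  have hsurj : Function.Surjective (Θ.comp Ψ) := by
    have hgen : n ≤ Ideal.span (Set.range fun i => θ (t i : O)) := by
      refine Submodule.le_of_le_smul_of_le_jacobson_bot (IsNoetherian.noetherian n)
        (IsAdicComplete.le_jacobson_bot n) ?_
      rw [hn, Ideal.span_le]
      rintro _ ⟨i, rfl⟩
      rw [SetLike.mem_coe, ← sub_sub_cancel (θ (t i : O)) (MvPowerSeries.X i), ← hn, smul_eq_mul,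
        ← pow_two]
      exact Submodule.sub_mem _ (Submodule.mem_sup_left (Ideal.subset_span ⟨i, rfl⟩))
        (Submodule.mem_sup_right (hθt i))
    have hmap : n.map (Θ.comp Ψ) = n := by
      refine le_antisymm ?_ (hgen.trans ?_)
      · rw [← Ideal.map_map, hΨn, AdicCompletion.maximalIdeal_eq_map, Ideal.map_map,
          show Θ.comp (algebraMap O M) = (θ : O →+* P) from RingHom.ext hΘθ]
        exact hθm
      · rw [Ideal.span_le]
        rintro _ ⟨i, rfl⟩
        have := Ideal.mem_map_of_mem (Θ.comp Ψ) (hX i)
        rwa [RingHom.comp_apply, hΨX, hΘθ] at this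
    have : IsHausdorff (n.map (Θ.comp Ψ)) P := by rw [hmap]; infer_instance
    refine surjective_of_mk_map_comp_surjective (Θ.comp Ψ) (I := n) fun y => ?_
    obtain ⟨y, rfl⟩ := Ideal.Quotient.mk_surjective y
    obtain ⟨x, hx⟩ := hΨsurj (algebraMap O M (algebraMap K O (MvPowerSeries.constantCoeff y)))
    refine ⟨x, ?_⟩
    rw [RingHom.comp_apply, Ideal.Quotient.mk_eq_mk_iff_sub_mem, hmap, RingHom.comp_apply, hx, hΘθ,
      θ.commutes, mem_maximalIdeal]
    exact fun h => by
      simpa [P, MvPowerSeries.algebraMap_apply] using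
        MvPowerSeries.isUnit_iff_constantCoeff.1 h
  refine ⟨r, ⟨(RingEquiv.ofBijective Ψ ⟨fun x y h => ?_, hΨsurj⟩).symm⟩⟩
  exact injective_of_surjective_endo hsurj (congrArg Θ h)

/-- **Formally smooth rational local rings are factorial domains.** -/
theorem isDomain_and_ufd_of_formallySmooth [Infinite K]
    (hres : Function.Bijective (algebraMap K (ResidueField O))) :
    IsDomain O ∧ UniqueFactorizationMonoid O := by
  obtain ⟨r, ⟨e⟩⟩ := exists_completion_equiv hres
  have : IsDomain (MvPowerSeries (Fin r) K) := NoZeroDivisors.to_isDomain _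
  have : IsDomain (AdicCompletion (maximalIdeal O) O) := e.toMulEquiv.isDomain
  have : UniqueFactorizationMonoid (MvPowerSeries (Fin r) K) := ufd_powerSeries r
  have : UniqueFactorizationMonoid (AdicCompletion (maximalIdeal O) O) :=
    e.symm.toMulEquiv.uniqueFactorizationMonoid inferInstance
  have hd : IsDomain O := isDomain_of_flat_local (S := AdicCompletion (maximalIdeal O) O)
  exact ⟨hd, ufd_of_flat_local (S := AdicCompletion (maximalIdeal O) O)⟩

end FermatAgent.AV

end
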