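import Fermat.Agent.AV.Basic.Stalk
import Fermat.Agent.AV.Squeeze.Centre

/-!
# The function field of a smooth variety

It is finitely generated of transcendence degree the relative dimension, separably generated, and
its module of differentials has that rank.
-/

set_option autoImplicit false

noncomputable section

open CategoryTheory AlgebraicGeometry TopologicalSpace IsLocalRing TensorProduct

universe u

namespace FermatAgent.AV

section Field

variable (K F : Type u) [Field K] [Field F] [Algebra K F]

/-- The differentials of a separably generated extension. -/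
theorem finrank_kaehler_of_isSeparable {ι : Type u} [Fintype ι] {v : ι → F}
    (hv : AlgebraicIndependent K v)
    [Algebra.IsSeparable (IntermediateField.adjoin K (Set.range v)) F] :
    Module.finrank F Ω[F⁄K] = Fintype.card ι := by
  let e := hv.aevalEquivField
  let P := MvPolynomial ι K
  let Q := FractionRing P
  let E := IntermediateField.adjoin K (Set.range v)
  let _ : Algebra Q F := (E.val.comp e.toAlgHom).toRingHom.toAlgebra
  let _ : Algebra P F := ((algebraMap Q F).comp (algebraMap P Q)).toAlgebra
  have : IsScalarTower P Q F := IsScalarTower.of_algebraMap_eq' rfl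
  have : IsScalarTower K P F := IsScalarTower.of_algebraMap_eq fun r => by
    rw [RingHom.algebraMap_toAlgebra, RingHom.comp_apply, ← IsScalarTower.algebraMap_apply K P Q]
    exact ((E.val.comp e.toAlgHom).commutes r).symm
  have : Algebra.IsSeparable Q F :=
    Algebra.IsSeparable.of_equiv_equiv e.symm.toRingEquiv (RingEquiv.refl F) (by
      ext z
      exact congrArg Subtype.val (e.apply_symm_apply z))
  have : Algebra.FormallyEtale Q F := Algebra.FormallyEtale.of_isSeparable Q F
  have : Algebra.FormallyEtale P Q := Algebra.FormallyEtale.of_isLocalization (nonZeroDivisors P)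
  have : Algebra.FormallyEtale P F := Algebra.FormallyEtale.comp P Q F
  rw [← (KaehlerDifferential.tensorKaehlerEquivOfFormallyEtale K P F).finrank_eq,
    Module.finrank_baseChange,
    Module.finrank_eq_card_basis (KaehlerDifferential.mvPolynomialBasis K ι)]

/-- Transcendence degree and differentials over a perfect field. -/
theorem trdeg_eq_finrank_kaehler [PerfectField K] [Algebra.EssFiniteType K F] :
    Algebra.trdeg K F = Module.finrank F Ω[F⁄K] := by
  obtain ⟨s, hs, hsep⟩ := exists_isTranscendenceBasis_and_isSeparable_of_perfectField K F
  have : Algebra.IsSeparable (IntermediateField.adjoin K (Set.range ((↑) : s → F))) F := by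
    convert! hsep <;> simp
  rw [finrank_kaehler_of_isSeparable K F hs.1, ← hs.cardinalMk_eq_trdeg, Cardinal.mk_fintype]

end Field

variable {K : Type u} [Field K] {A : Scheme.{u}} (f : A ⟶ Spec (CommRingCat.of K))

theorem stalkConst_genericPoint [IsIntegral A] :
    stalkConst f (genericPoint A) = Squeeze.baseMap f := by
  exact congrArg (fun m => ((Scheme.ΓSpecIso (CommRingCat.of K)).inv ≫ m ≫
    A.presheaf.germ ⊤ (genericPoint A) trivial).hom) (Scheme.Hom.app_eq_appLE f (U := ⊤)).symm

theorem exists_chart_at (g : ℕ) [SmoothOfRelativeDimension g f] (x : A) :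
    ∃ V : A.Opens, IsAffineOpen V ∧ x ∈ V ∧
      (constHom f V).IsStandardSmoothOfRelativeDimension g := by
  obtain ⟨U, hU, V, hV, hxV, e, h⟩ :=
    SmoothOfRelativeDimension.exists_isStandardSmoothOfRelativeDimension (n := g) (f := f) x
  obtain rfl : U = ⊤ := by
    refine top_le_iff.1 fun y _ => ?_
    rw [Subsingleton.elim y (f x)]
    exact e hxV
  refine ⟨V, hV, hxV, ?_⟩
  rw [constHom, CommRingCat.hom_comp]
  exact RingHom.isStandardSmoothOfRelativeDimension_respectsIso.2 _
    (Scheme.ΓSpecIso (CommRingCat.of K)).symm.commRingCatIsoToRingEquiv h

variable [IsIntegral A] [Algebra K A.functionField]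
  (hf : algebraMap K A.functionField = Squeeze.baseMap f)

include hf in
theorem algebraMap_comp_constHom (V : A.Opens) [Nonempty V] :
    (algebraMap Γ(A, V) A.functionField).comp (constHom f V) = algebraMap K A.functionField := by
  rw [hf, ← stalkConst_genericPoint]
  exact germ_constHom f _

include f hf in
theorem essFiniteType_functionField [LocallyOfFiniteType f] :
    Algebra.EssFiniteType K A.functionField := by
  obtain ⟨x⟩ : Nonempty A := inferInstance
  obtain ⟨V, hV, hxV, -⟩ := exists_isAffineOpen_mem_and_subset (Opens.mem_top x)
  have : Nonempty V := ⟨⟨x, hxV⟩⟩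
  let _ : Algebra K Γ(A, V) := (constHom f V).toAlgebra
  have : IsScalarTower K Γ(A, V) A.functionField :=
    IsScalarTower.of_algebraMap_eq' (algebraMap_comp_constHom f hf V).symm
  have : Algebra.FiniteType K Γ(A, V) := by
    rw [← RingHom.finiteType_algebraMap, RingHom.algebraMap_toAlgebra, constHom,
      CommRingCat.hom_comp]
    exact RingHom.FiniteType.comp (f.finiteType_appLE (isAffineOpen_top _) hV le_top)
      (RingHom.FiniteType.of_surjective _ (ConcreteCategory.bijective_of_isIso _).2)
  have := functionField_isFractionRing_of_isAffineOpen A V hV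
  have : Algebra.EssFiniteType Γ(A, V) A.functionField :=
    .of_isLocalization _ (nonZeroDivisors Γ(A, V))
  exact Algebra.EssFiniteType.comp K Γ(A, V) A.functionField

include f hf in
/-- On an integral variety smooth of relative dimension `g` over a field `K` the differentials of
the function field over `K` have dimension `g`. -/
theorem finrank_kaehler_functionField (g : ℕ) [SmoothOfRelativeDimension g f] :
    Module.finrank A.functionField Ω[A.functionField⁄K] = g := by
  obtain ⟨x⟩ : Nonempty A := inferInstance
  obtain ⟨V, hV, hxV, hs⟩ := exists_chart_at f g x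
  have hne : Nonempty V := ⟨⟨x, hxV⟩⟩
  let _ : Algebra K Γ(A, V) := (constHom f V).toAlgebra
  have : Algebra.IsStandardSmoothOfRelativeDimension g K Γ(A, V) := hs
  have : IsScalarTower K Γ(A, V) A.functionField :=
    IsScalarTower.of_algebraMap_eq' (algebraMap_comp_constHom f hf V).symm
  have := functionField_isFractionRing_of_isAffineOpen A V hV
  have : Algebra.FormallyEtale Γ(A, V) A.functionField :=
    Algebra.FormallyEtale.of_isLocalization (nonZeroDivisors Γ(A, V))
  have : Algebra.IsStandardSmooth K Γ(A, V) :=
    Algebra.IsStandardSmoothOfRelativeDimension.isStandardSmooth g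
  rw [← (KaehlerDifferential.tensorKaehlerEquivOfFormallyEtale K Γ(A, V)
    A.functionField).finrank_eq, Module.finrank_baseChange]
  exact Module.finrank_eq_of_rank_eq
    (Algebra.IsStandardSmoothOfRelativeDimension.rank_kaehlerDifferential g)

include f hf in
/-- The function field of an integral variety smooth of relative dimension `g` over a perfect
field `K` has transcendence degree `g` over `K`. -/
theorem trdeg_functionField [PerfectField K] (g : ℕ) [SmoothOfRelativeDimension g f] :
    Algebra.trdeg K A.functionField = g := by
  have : Smooth f := SmoothOfRelativeDimension.smooth g f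
  have := essFiniteType_functionField f hf
  rw [trdeg_eq_finrank_kaehler, finrank_kaehler_functionField f hf g]

end FermatAgent.AV

end
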