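import Mathlib

/-!
# Power series over an infinite field form a factorial ring

Induction on the number of variables: a linear change of variables makes a series regular in the
first variable, and Weierstrass preparation replaces it by a distinguished polynomial.
-/

set_option autoImplicit false

noncomputable section

open MvPowerSeries IsLocalRing

namespace FermatAgent.AV

variable (K : Type*) [Field K]

theorem maximalIdeal_powerSeries (n : ℕ) :
    maximalIdeal (MvPowerSeries (Fin n) K) = Ideal.span (Set.range X) := by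
  refine le_antisymm ?_ ?_
  · suffices ∀ f : MvPowerSeries (Fin n) K, constantCoeff f = 0 → f ∈ Ideal.span (Set.range X) by
      intro f hf
      refine this f (not_not.1 fun h => (mem_maximalIdeal f).1 hf ?_)
      exact isUnit_iff_constantCoeff.2 (isUnit_iff_ne_zero.2 h)
    induction n with
    | zero =>
      intro f hf
      have : f = 0 := by
        ext d
        rw [Subsingleton.elim d 0, coeff_zero_eq_constantCoeff_apply, hf, map_zero]
      rw [this]; exact Ideal.zero_mem _
    | succ n ih =>
      intro f hf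
      set e := finSuccEquiv K n
      have h0 : constantCoeff (PowerSeries.constantCoeff (e f)) = 0 := by
        rw [← PowerSeries.coeff_zero_eq_constantCoeff_apply, ← coeff_zero_eq_constantCoeff_apply,
          coeff_coeff_finSuccEquiv, Finsupp.cons_zero_zero, coeff_zero_eq_constantCoeff_apply, hf]
      have h1 : f = e.symm (PowerSeries.C (PowerSeries.constantCoeff (e f))) +
          X 0 * e.symm (PowerSeries.mk fun p => PowerSeries.coeff (p + 1) (e f)) := by
        apply e.injective
        rw [map_add, map_mul, e.apply_symm_apply, e.apply_symm_apply, finSuccEquiv_X_zero,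
          add_comm (PowerSeries.C _)]
        exact PowerSeries.eq_X_mul_shift_add_const _
      rw [h1]
      refine Ideal.add_mem _ ?_ (Ideal.mul_mem_right _ _ (Ideal.subset_span ⟨0, rfl⟩))
      have h2 := Ideal.mem_map_of_mem (e.symm.toRingHom.comp PowerSeries.C) (ih _ h0)
      rw [Ideal.map_span] at h2
      refine Ideal.span_mono ?_ h2
      rintro _ ⟨_, ⟨i, rfl⟩, rfl⟩
      exact ⟨i.succ, (e.symm_apply_eq.2 (finSuccEquiv_X_succ i).symm).symm⟩
  · rw [Ideal.span_le]
    rintro _ ⟨i, rfl⟩
    exact (mem_maximalIdeal _).2 fun h => by simpa using isUnit_iff_constantCoeff.1 h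

instance isAdicComplete_powerSeries (n : ℕ) :
    IsAdicComplete (maximalIdeal (MvPowerSeries (Fin n) K)) (MvPowerSeries (Fin n) K) := by
  rw [maximalIdeal_powerSeries]
  infer_instance

variable {K}

/-- The series `x₀ ↦ c₀ x₀`, `xᵢ ↦ xᵢ + cᵢ x₀`. -/
def shearVec {n : ℕ} (c : Fin (n + 1) → K) : Fin (n + 1) → MvPowerSeries (Fin (n + 1)) K :=
  fun i => if i = 0 then C (c 0) * X 0 else X i + C (c i) * X 0

theorem hasSubst_shear {n : ℕ} (c : Fin (n + 1) → K) : HasSubst (shearVec c) :=
  hasSubst_of_constantCoeff_zero fun i => by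
    by_cases h : i = 0 <;> simp [shearVec, h]

theorem shear_comp {n : ℕ} (c d : Fin (n + 1) → K) (h0 : c 0 * d 0 = 1)
    (h : ∀ i, i ≠ 0 → d i + c i * d 0 = 0) (f : MvPowerSeries (Fin (n + 1)) K) :
    subst (shearVec d) (subst (shearVec c) f) = f := by
  rw [subst_comp_subst_apply (hasSubst_shear c) (hasSubst_shear d)]
  conv_rhs => rw [← id_eq f, ← subst_self]
  congr 1
  funext i
  have hd := hasSubst_shear d
  rw [← coe_substAlgHom hd]
  have hC : ∀ a : K, substAlgHom hd (C a) = C a := fun a => (substAlgHom hd).commutes a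
  by_cases hi : i = 0
  · subst hi
    simp only [shearVec, if_true, map_mul, hC, substAlgHom_X]
    rw [← mul_assoc, ← map_mul, h0, map_one, one_mul]
  · simp only [shearVec, if_neg hi, map_add, map_mul, hC, substAlgHom_X, if_true]
    rw [add_assoc, ← mul_assoc, ← map_mul, ← add_mul, ← map_add, h i hi, map_zero, zero_mul,
      add_zero]

/-- The change of variables. -/
def shear {n : ℕ} (c : Fin (n + 1) → K) (h0 : c 0 ≠ 0) :
    MvPowerSeries (Fin (n + 1)) K ≃ₐ[K] MvPowerSeries (Fin (n + 1)) K :=
  let d : Fin (n + 1) → K := fun i => if i = 0 then (c 0)⁻¹ else -(c i * (c 0)⁻¹)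
  AlgEquiv.ofAlgHom (substAlgHom (hasSubst_shear c)) (substAlgHom (hasSubst_shear d))
    (AlgHom.ext fun f => by
      simp only [AlgHom.comp_apply, coe_substAlgHom, AlgHom.id_apply]
      refine shear_comp d c ?_ (fun i hi => ?_) f
      · simp [d, h0]
      · simp only [d, if_neg hi]; field_simp; ring)
    (AlgHom.ext fun f => by
      simp only [AlgHom.comp_apply, coe_substAlgHom, AlgHom.id_apply]
      refine shear_comp c d ?_ (fun i hi => ?_) f
      · simp [d, h0]
      · simp [d, if_neg hi])

theorem exists_regular [Infinite K] {n : ℕ} {f : MvPowerSeries (Fin (n + 1)) K} (hf : f ≠ 0) :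
    ∃ (c : Fin (n + 1) → K) (h0 : c 0 ≠ 0) (d : ℕ),
      coeff (Finsupp.single 0 d) (shear c h0 f) ≠ 0 := by
  classical
  obtain ⟨e₀, he₀, hdeg⟩ := exists_coeff_ne_zero_and_order (f := f) (ne_zero_iff_order_finite.1 hf)
  set d := e₀.degree
  set p : MvPolynomial (Fin (n + 1)) K := truncTotal (d + 1) f
  have hlow : ∀ e : Fin (n + 1) →₀ ℕ, e.degree < d → coeff e f = 0 := fun e he =>
    coeff_of_lt_order (by rw [← hdeg]; exact_mod_cast he)
  have hp : ∀ e : Fin (n + 1) →₀ ℕ, p.coeff e = if e.degree = d then coeff e f else 0 := by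
    intro e
    rcases lt_trichotomy e.degree d with h | h | h
    · rw [if_neg h.ne, coeff_truncTotal _ (by omega), hlow e h]
    · rw [if_pos h, coeff_truncTotal _ (by omega)]
    · rw [if_neg h.ne', coeff_truncTotal_eq_zero _ (by omega)]
  obtain ⟨c, hc⟩ : ∃ c, MvPolynomial.eval c (p * MvPolynomial.X 0) ≠ 0 := by
    by_contra! h
    have hp0 : p * MvPolynomial.X 0 = 0 := MvPolynomial.funext fun x => by rw [h, map_zero]
    rw [mul_eq_zero, or_iff_left (MvPolynomial.X_ne_zero _)] at hp0
    have := hp e₀
    rw [hp0, if_pos rfl, MvPolynomial.coeff_zero] at this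
    exact he₀ this.symm
  rw [map_mul, MvPolynomial.eval_X, mul_ne_zero_iff] at hc
  refine ⟨c, hc.2, d, ?_⟩
  have hval : ∀ e : Fin (n + 1) →₀ ℕ,
      coeff (Finsupp.single (0 : Fin (n + 1)) d) (e.prod fun i k => shearVec c i ^ k) =
        if e.degree = d then ∏ i, c i ^ e i else 0 := by
    intro e
    set η : MvPowerSeries (Fin (n + 1)) K →+* PowerSeries K :=
      (PowerSeries.map (constantCoeff (σ := Fin n) (R := K))).comp
        (finSuccEquiv K n).toRingEquiv.toRingHom
    have hη : ∀ g, PowerSeries.coeff d (η g) = coeff (Finsupp.single 0 d) g := fun g => by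
      simp only [η, RingHom.comp_apply, PowerSeries.coeff_map]
      rw [← coeff_zero_eq_constantCoeff_apply]
      refine (coeff_coeff_finSuccEquiv g).trans (congrArg (fun x => coeff x g) ?_)
      ext i
      refine Fin.cases ?_ (fun i => ?_) i <;> simp
    have hi : ∀ i, η (shearVec c i) = PowerSeries.C (c i) * PowerSeries.X := fun i => by
      refine Fin.cases ?_ (fun i => ?_) i
      · simp [η, shearVec]
      · simp [η, shearVec, Fin.succ_ne_zero]
    rw [← hη, Finsupp.prod_fintype _ _ (fun i => pow_zero _), map_prod η]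
    simp only [map_pow η, hi, mul_pow, Finset.prod_mul_distrib, Finset.prod_pow_eq_pow_sum,
      ← map_pow, ← map_prod, PowerSeries.coeff_C_mul, PowerSeries.coeff_X_pow]
    rw [show (∑ i, e i) = e.degree from (Finsupp.degree_eq_sum e).symm]
    rcases eq_or_ne e.degree d with h | h
    · rw [if_pos h, if_pos h.symm, mul_one]
    · rw [if_neg h, if_neg h.symm, mul_zero]
  change coeff _ (substAlgHom (hasSubst_shear c) f) ≠ 0
  rw [coe_substAlgHom, coeff_subst (hasSubst_shear c)]
  convert hc.1 using 1
  rw [MvPolynomial.eval_eq', finsum_eq_sum_of_support_subset _ (s := p.support) ?_]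
  · refine Finset.sum_congr rfl fun e _ => ?_
    rw [hval, hp]
    split_ifs with h <;> simp
  · intro e he
    rw [Function.mem_support, hval] at he
    rw [Finset.mem_coe, MvPolynomial.mem_support_iff, hp]
    split_ifs at he ⊢ with h
    · intro h0; rw [h0] at he; simp at he
    · simp at he

theorem prime_of_irreducible_powerSeries {R : Type*} [CommRing R] [IsDomain R] [IsLocalRing R]
    [IsAdicComplete (maximalIdeal R) R] [UniqueFactorizationMonoid R] {g : PowerSeries R}
    (hg : Irreducible g) (hr : g.map (residue R) ≠ 0) : Prime g := by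
  obtain ⟨P, h, H⟩ := PowerSeries.exists_isWeierstrassFactorization hr
  have hm : P.map (residue R) = Polynomial.X ^ P.natDegree :=
    H.isDistinguishedAt.map_eq_X_pow
  have hnu : ∀ a : Polynomial R, a.Monic → a ∣ P → a.natDegree ≠ 0 →
      ¬ IsUnit (a : PowerSeries R) := by
    intro a ha hdvd hd hu
    have h1 : a.map (residue R) ∣ Polynomial.X ^ P.natDegree := hm ▸ Polynomial.map_dvd _ hdvd
    obtain ⟨i, -, hi⟩ := (dvd_prime_pow Polynomial.prime_X _).1 h1
    have h2 : a.map (residue R) = Polynomial.X ^ i :=
      Polynomial.eq_of_monic_of_associated (ha.map _) (Polynomial.monic_X_pow i) hi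
    have hi0 : i ≠ 0 := fun h0 => hd (by
      rw [← Polynomial.natDegree_map_eq_of_isUnit_leadingCoeff (residue R)
        (by simp [ha.leadingCoeff]),
        h2, h0, pow_zero, Polynomial.natDegree_one])
    have h3 := congrArg (fun q => Polynomial.coeff q 0) h2
    simp only [Polynomial.coeff_map, Polynomial.coeff_X_pow, if_neg (Ne.symm hi0)] at h3
    rw [PowerSeries.isUnit_iff_constantCoeff, Polynomial.constantCoeff_coe,
      ← residue_ne_zero_iff_isUnit] at hu
    exact hu h3
  have hP1 : P ≠ 1 := fun h1 => hg.not_isUnit (by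
    rw [H.eq_mul, h1, Polynomial.coe_one, one_mul]; exact H.isUnit)
  have hP : Irreducible P := by
    rw [H.isDistinguishedAt.monic.irreducible_iff_natDegree]
    refine ⟨hP1, fun a b ha hb hab => ?_⟩
    by_contra hne
    rw [not_or] at hne
    have := hg.isUnit_or_isUnit (a := (a : PowerSeries R)) (b := (b : PowerSeries R) * h)
      (by rw [H.eq_mul, ← hab, Polynomial.coe_mul, mul_assoc])
    rcases this with hu | hu
    · exact hnu a ha (Dvd.intro b hab) hne.1 hu
    · exact hnu b hb (Dvd.intro_left a hab) hne.2 (isUnit_of_mul_isUnit_left hu)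
  have hPp : Prime P := UniqueFactorizationMonoid.irreducible_iff_prime.1 hP
  have hd : IsDomain (Polynomial R ⧸ Ideal.span {P}) :=
    (Ideal.Quotient.isDomain_iff_prime _).2 ((Ideal.span_singleton_prime hP.ne_zero).2 hPp)
  have hd' : IsDomain (PowerSeries R ⧸ Ideal.span {g}) :=
    H.algEquivQuotient.toMulEquiv.symm.isDomain
  exact (Ideal.span_singleton_prime hg.ne_zero).1 ((Ideal.Quotient.isDomain_iff_prime _).1 hd')

/-- **Power series rings are factorial**: over an infinite field the ring of formal power series
in `n` variables is a unique factorisation domain. -/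
theorem ufd_powerSeries [Infinite K] (n : ℕ) :
    UniqueFactorizationMonoid (MvPowerSeries (Fin n) K) := by
  induction n with
  | zero => exact (isEmptyEquiv (Fin 0) K).symm.toMulEquiv.uniqueFactorizationMonoid inferInstance
  | succ n ih =>
    have : IsDomain (MvPowerSeries (Fin n) K) := NoZeroDivisors.to_isDomain _
    have : IsDomain (MvPowerSeries (Fin (n + 1)) K) := NoZeroDivisors.to_isDomain _
    refine { irreducible_iff_prime := fun {f} => ⟨fun hf => ?_, fun hf => hf.irreducible⟩ }
    obtain ⟨c, h0, d, hd⟩ := exists_regular hf.ne_zero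
    set Φ := ((shear c h0).trans (finSuccEquiv K n)).toMulEquiv
    have hr : (finSuccEquiv K n (shear c h0 f)).map (residue (MvPowerSeries (Fin n) K)) ≠ 0 := by
      intro h
      have h1 := congrArg (PowerSeries.coeff d) h
      rw [PowerSeries.coeff_map, map_zero, residue_eq_zero_iff, mem_maximalIdeal,
        mem_nonunits_iff, isUnit_iff_constantCoeff, isUnit_iff_ne_zero, not_not,
        ← coeff_zero_eq_constantCoeff_apply, coeff_coeff_finSuccEquiv] at h1
      refine hd ((congrArg (fun x => coeff x (shear c h0 f)) ?_).trans h1)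
      ext i
      refine Fin.cases ?_ (fun i => ?_) i <;> simp
    refine (MulEquiv.prime_iff Φ).1 (prime_of_irreducible_powerSeries ?_ hr)
    exact (MulEquiv.irreducible_iff Φ).2 hf

end FermatAgent.AV

end
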