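import Mathlib

/-!
# Rational points of algebras of finite type over an algebraically closed field

A maximal ideal of such an algebra has residue field the base field, so is the kernel of a
rational point, and the local ring at it has the base field as residue field.
-/

set_option autoImplicit false

namespace FermatAgent.AV

variable {k A : Type*} [Field k] [IsAlgClosed k] [CommRing A] [Algebra k A]

/-- A maximal ideal with finite residue field is the kernel of a rational point. -/
theorem exists_algHom_ker (m : Ideal A) [m.IsMaximal] [Module.Finite k (A ⧸ m)] :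
    ∃ e : A →ₐ[k] k, ∀ a, e a = 0 ↔ a ∈ m := by
  let : Field (A ⧸ m) := Ideal.Quotient.field m
  have hb : Function.Bijective (Algebra.ofId k (A ⧸ m)) :=
    ⟨(algebraMap k (A ⧸ m)).injective, IsAlgClosed.algebraMap_bijective_of_isIntegral.2⟩
  refine ⟨(AlgEquiv.ofBijective _ hb).symm.toAlgHom.comp (Ideal.Quotient.mkₐ k m), fun a => ?_⟩
  rw [← Ideal.Quotient.eq_zero_iff_mem]
  exact map_eq_zero_iff (AlgEquiv.ofBijective _ hb).symm (AlgEquiv.injective _)

/-- A closed point of an algebra of finite type has finite residue field. -/
theorem finite_quotient_maximal {k A : Type*} [Field k] [CommRing A] [Algebra k A]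
    [Algebra.FiniteType k A] (m : Ideal A) [m.IsMaximal] : Module.Finite k (A ⧸ m) :=
  let _ : Field (A ⧸ m) := Ideal.Quotient.field m
  have : Algebra.FiniteType k (A ⧸ m) :=
    Algebra.FiniteType.of_surjective (Ideal.Quotient.mkₐ k m) (Ideal.Quotient.mkₐ_surjective k m)
  finite_of_finite_type_of_isJacobsonRing k _

open IsLocalRing in
/-- The local ring at a closed point has residue field the base field. -/
theorem bijective_algebraMap_residueField (p : Ideal A) [p.IsMaximal] [Algebra.FiniteType k A]
    (O : Type*) [CommRing O] [IsLocalRing O] [Algebra A O] [Algebra k O] [IsScalarTower k A O]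
    [IsLocalization.AtPrime O p] : Function.Bijective (algebraMap k (ResidueField O)) := by
  have hsurj : Function.Surjective (algebraMap A (ResidueField O)) := by
    let e := IsLocalization.AtPrime.equivQuotMaximalIdeal p O
    intro z
    obtain ⟨y, hy⟩ := Ideal.Quotient.mk_surjective (e.symm z)
    refine ⟨y, ?_⟩
    rw [← e.apply_symm_apply z, ← hy]
    rfl
  have : Algebra.FiniteType k (ResidueField O) :=
    Algebra.FiniteType.of_surjective (IsScalarTower.toAlgHom k A _) hsurj
  have : Module.Finite k (ResidueField O) := finite_of_finite_type_of_isJacobsonRing k _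
  exact IsAlgClosed.algebraMap_bijective_of_isIntegral

end FermatAgent.AV
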