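import Fermat.Agent.AV.Basic.Completion
import Fermat.Agent.AV.Basic.RationalPoint

/-!
# Connected smooth schemes over an algebraically closed field

The local rings at closed points are factorial domains, and a connected such scheme is integral.
-/

set_option autoImplicit false

noncomputable section

open CategoryTheory AlgebraicGeometry TopologicalSpace IsLocalRing

universe u

namespace FermatAgent.AV

variable {K : Type u} [Field K] {A : Scheme.{u}} (f : A ⟶ Spec (CommRingCat.of K))

/-- The constants as functions on an open set. -/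
def constHom (V : A.Opens) : K →+* Γ(A, V) :=
  ((Scheme.ΓSpecIso (CommRingCat.of K)).inv ≫ f.appLE ⊤ V le_top).hom

/-- The constants in the local ring at a point. -/
def stalkConst (x : A) : K →+* A.presheaf.stalk x :=
  (A.presheaf.germ ⊤ x trivial).hom.comp (constHom f ⊤)

theorem constHom_res {V W : A.Opens} (h : V ≤ W) :
    (A.presheaf.map (homOfLE h).op).hom.comp (constHom f W) = constHom f V := by
  exact congrArg (fun m => ((Scheme.ΓSpecIso (CommRingCat.of K)).inv ≫ m).hom)
    (Scheme.Hom.appLE_map f _ (homOfLE h).op)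

theorem germ_constHom {V : A.Opens} {x : A} (hx : x ∈ V) :
    (A.presheaf.germ V x hx).hom.comp (constHom f V) = stalkConst f x := by
  rw [stalkConst, ← constHom_res f (le_top (a := V)), ← RingHom.comp_assoc, ← CommRingCat.hom_comp,
    TopCat.Presheaf.germ_res]

theorem fromSpec_comp (V : A.Opens) (hV : IsAffineOpen V) :
    hV.fromSpec ≫ f = Spec.map (CommRingCat.ofHom (constHom f V)) := by
  have h : (isAffineOpen_top (Spec (CommRingCat.of K))).fromSpec =
      Spec.map (Scheme.ΓSpecIso (CommRingCat.of K)).inv := by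
    rw [IsAffineOpen.fromSpec_top, Scheme.isoSpec_Spec_inv]
  rw [← IsAffineOpen.SpecMap_appLE_fromSpec f (isAffineOpen_top _) hV le_top, h, ← Spec.map_comp]
  rfl

theorem smooth_constHom [Smooth f] {V : A.Opens} (hV : IsAffineOpen V) :
    (constHom f V).Smooth := by
  rw [constHom, CommRingCat.hom_comp]
  exact RingHom.Smooth.stableUnderComposition _ _
    (RingHom.Smooth.of_bijective (ConcreteCategory.bijective_of_isIso _))
    (f.smooth_appLE (isAffineOpen_top _) hV le_top)

variable [IsAlgClosed K] [Smooth f]

include f in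
/-- The local algebra at a closed point. -/
theorem stalk_facts {x : A} (hx : IsClosed ({x} : Set A)) :
    IsDomain (A.presheaf.stalk x) ∧ UniqueFactorizationMonoid (A.presheaf.stalk x) := by
  obtain ⟨V, hV, hxV, -⟩ := exists_isAffineOpen_mem_and_subset (Opens.mem_top x)
  let _ : Algebra K Γ(A, V) := (constHom f V).toAlgebra
  have : Algebra.Smooth K Γ(A, V) := smooth_constHom f hV
  have : IsNoetherianRing Γ(A, V) := Algebra.FiniteType.isNoetherianRing K _
  set O := A.presheaf.stalk x
  let _ : Algebra Γ(A, V) O := A.presheaf.algebra_section_stalk ⟨x, hxV⟩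
  let _ : Algebra K O := ((algebraMap Γ(A, V) O).comp (algebraMap K Γ(A, V))).toAlgebra
  have : IsScalarTower K Γ(A, V) O := IsScalarTower.of_algebraMap_eq' rfl
  set p := (hV.primeIdealOf ⟨x, hxV⟩).asIdeal
  have : p.IsMaximal := hV.primeIdealOf_isMaximal_of_isClosed ⟨x, hxV⟩ hx
  have : IsLocalization.AtPrime O p := hV.isLocalization_stalk ⟨x, hxV⟩
  have : IsNoetherianRing O := IsLocalization.isNoetherianRing p.primeCompl O inferInstance
  have : Algebra.FormallySmooth Γ(A, V) O := Algebra.FormallySmooth.of_isLocalization p.primeCompl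
  have : Algebra.FormallySmooth K O := Algebra.FormallySmooth.comp K Γ(A, V) O
  exact isDomain_and_ufd_of_formallySmooth (K := K) (bijective_algebraMap_residueField p O)

include f in
/-- Near a closed point the scheme is integral. -/
theorem exists_integral_nhd {x : A} (hx : IsClosed ({x} : Set A)) :
    ∃ W : A.Opens, x ∈ W ∧ IsAffineOpen W ∧ IsDomain Γ(A, W) := by
  classical
  obtain ⟨V, hV, hxV, -⟩ := exists_isAffineOpen_mem_and_subset (Opens.mem_top x)
  let _ : Algebra K Γ(A, V) := (constHom f V).toAlgebra
  have : Algebra.Smooth K Γ(A, V) := smooth_constHom f hV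
  have : IsNoetherianRing Γ(A, V) := Algebra.FiniteType.isNoetherianRing K _
  set O := A.presheaf.stalk x
  let _ : Algebra Γ(A, V) O := A.presheaf.algebra_section_stalk ⟨x, hxV⟩
  set p := (hV.primeIdealOf ⟨x, hxV⟩).asIdeal
  have : p.IsMaximal := hV.primeIdealOf_isMaximal_of_isClosed ⟨x, hxV⟩ hx
  have : IsLocalization.AtPrime O p := hV.isLocalization_stalk ⟨x, hxV⟩
  have : IsDomain O := (stalk_facts f hx).1
  obtain ⟨G, hG⟩ := IsNoetherian.noetherian (RingHom.ker (algebraMap Γ(A, V) O))
  have hmem : ∀ g : G, ∃ t : p.primeCompl, (t : Γ(A, V)) * g = 0 := fun g =>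
    (IsLocalization.map_eq_zero_iff p.primeCompl O _).1 (RingHom.mem_ker.1 (by
      rw [← hG]; exact Submodule.subset_span g.2))
  choose t ht using hmem
  set s : p.primeCompl := ∏ g, t g
  have hs : ∀ y ∈ RingHom.ker (algebraMap Γ(A, V) O), (s : Γ(A, V)) * y = 0 := by
    intro y hy
    rw [← hG] at hy
    induction hy using Submodule.span_induction with
    | mem y hy =>
      obtain ⟨c, hc⟩ : (t ⟨y, hy⟩ : Γ(A, V)) ∣ s := by
        rw [Submonoid.coe_finsetProd]
        exact Finset.dvd_prod_of_mem _ (Finset.mem_univ _)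
      rw [hc, mul_right_comm, ht ⟨y, hy⟩, zero_mul]
    | zero => rw [mul_zero]
    | add y z _ _ hy hz => rw [mul_add, hy, hz, add_zero]
    | smul r y _ hy => rw [smul_eq_mul, mul_left_comm, hy, mul_zero]
  refine ⟨A.basicOpen (s : Γ(A, V)), ?_, hV.basicOpen _, ?_⟩
  · rw [A.mem_basicOpen _ x hxV]
    exact IsLocalization.map_units O s
  · have := hV.isLocalization_basicOpen (s : Γ(A, V))
    let φ : Γ(A, A.basicOpen (s : Γ(A, V))) →+* O :=
      IsLocalization.Away.lift (s : Γ(A, V)) (g := algebraMap Γ(A, V) O)
        (IsLocalization.map_units O s)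
    refine Function.Injective.isDomain φ ((injective_iff_map_eq_zero _).2 fun z hz => ?_)
    obtain ⟨⟨y, k⟩, hy⟩ := IsLocalization.surj (Submonoid.powers (s : Γ(A, V))) z
    have h0 : algebraMap Γ(A, V) O y = 0 := by
      have e := congrArg φ hy
      rw [map_mul, hz, zero_mul] at e
      simpa [φ] using e.symm
    have hu := IsLocalization.map_units Γ(A, A.basicOpen (s : Γ(A, V))) k
    have hu' := IsLocalization.map_units Γ(A, A.basicOpen (s : Γ(A, V)))
      (⟨(s : Γ(A, V)), Submonoid.mem_powers _⟩ : Submonoid.powers (s : Γ(A, V)))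
    refine hu.mul_left_eq_zero.1 ?_
    rw [hy]
    refine hu'.mul_right_eq_zero.1 ?_
    rw [← map_mul, hs y h0, map_zero]

/-- A connected space with irreducible neighbourhoods is irreducible. -/
theorem irreducibleSpace_of_connected_of_local {X : Type*} [TopologicalSpace X] [ConnectedSpace X]
    (h : ∀ x : X, ∃ W : Set X, IsOpen W ∧ x ∈ W ∧ IsIrreducible W) : IrreducibleSpace X := by
  have hd : ∀ U : Set X, IsOpen U → U.Nonempty → closure U = Set.univ := by
    intro U hU hne
    refine IsClopen.eq_univ ⟨isClosed_closure, ?_⟩ (hne.mono subset_closure)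
    refine isOpen_iff_forall_mem_open.2 fun x hx => ?_
    obtain ⟨W, hW, hxW, hWi⟩ := h x
    refine ⟨W, ?_, hW, hxW⟩
    have hWU : (W ∩ U).Nonempty := mem_closure_iff.1 hx W hW hxW
    exact (subset_closure_inter_of_isPreirreducible_of_isOpen hWi.isPreirreducible hU hWU).trans
      (closure_mono Set.inter_subset_right)
  have : PreirreducibleSpace X := ⟨fun U V hU hV hne hne' => by
    obtain ⟨y, -, hy⟩ := hne'
    obtain ⟨x, -, hx⟩ := hne
    obtain ⟨z, hzV, hzU⟩ := mem_closure_iff.1
      (show y ∈ closure U by rw [hd U hU ⟨x, hx⟩]; trivial) V hV hy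
    exact ⟨z, trivial, hzU, hzV⟩⟩
  exact ⟨inferInstance⟩

include f in
/-- A connected scheme smooth over an algebraically closed field is integral. -/
theorem isIntegral_of_smooth [ConnectedSpace A] : IsIntegral A := by
  have : JacobsonSpace A := LocallyOfFiniteType.jacobsonSpace f
  have hloc : ∀ x : A, ∃ W : A.Opens, x ∈ W ∧ IsIntegral W.toScheme := by
    intro x
    obtain ⟨y, hy, hyc⟩ := nonempty_inter_closedPoints (show (closure ({x} : Set A)).Nonempty from
      ⟨x, subset_closure rfl⟩) isClosed_closure.isLocallyClosed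
    obtain ⟨W, hyW, hW, hdom⟩ := exists_integral_nhd f hyc
    refine ⟨W, (specializes_iff_mem_closure.2 hy).mem_open W.isOpen hyW, ?_⟩
    have : IsAffine W.toScheme := hW
    have : Nonempty W.toScheme := ⟨⟨y, hyW⟩⟩
    have : IsDomain Γ(W.toScheme, ⊤) := W.topIso.commRingCatIsoToRingEquiv.toMulEquiv.isDomain
    exact isIntegral_of_isAffine_of_isDomain _
  have : AlgebraicGeometry.IsReduced A := by
    have : ∀ x : A, _root_.IsReduced (A.presheaf.stalk x) := fun x => by
      obtain ⟨W, hxW, hW⟩ := hloc x
      have : AlgebraicGeometry.IsReduced W.toScheme := isReduced_of_isIntegral _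
      have : _root_.IsReduced (W.toScheme.presheaf.stalk ⟨x, hxW⟩) :=
        isReduced_stalk_of_isReduced _ _
      exact isReduced_of_injective (W.stalkIso ⟨x, hxW⟩).inv.hom
        (ConcreteCategory.bijective_of_isIso (W.stalkIso ⟨x, hxW⟩).inv).1
    exact isReduced_of_isReduced_stalk A
  have : IrreducibleSpace A := by
    refine irreducibleSpace_of_connected_of_local fun x => ?_
    obtain ⟨W, hxW, hW⟩ := hloc x
    refine ⟨(W : Set A), W.isOpen, hxW, ?_⟩
    have h1 := (IrreducibleSpace.isIrreducible_univ W.toScheme).image W.ι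
      W.ι.continuous.continuousOn
    rwa [Set.image_univ, Scheme.Opens.range_ι] at h1
  exact isIntegral_of_irreducibleSpace_of_isReduced A

end FermatAgent.AV

end
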